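/-
Programme G1, chapter B2/X1 (lead helper62): INTERFACE of the X0-twin for `X_1(M)`.

Literal twin of `X0/AnDefs` (formal side) + `X0/Iface`:
* `FF1 M = ↥(F1Bar M)` : the function field `ℚbar · F1(M) ≤ ℚbar((q))`;
* generators `jdF1 M d hd` (`d ∣ M`), `hcF1 M c hc` (`c ≠ 0`; `h_c = -j (j - 1728) t_c`, the
  multiple of `t_c` that is HOLOMORPHIC on `ℍ`: analytically `h_c = EE_c E₄E₆/Δ = hFun M c`),
  `tcF1 M c hc`;
* `incl01 : FF M →ₐ FF1 M` (the cover `X_1(M) → X_0(M)`), `jF1`, `Kj1 = ℚbar(j)`;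
* `R1sub M = ℚbar[j_d, h_c] ⊆ FF1 M`;
* `RealizeData1 M` : analytic realisation `Θ : R1sub M →+* (ℍ → ℂ)` (injective, `Θ j_d = j(d·)`,
  `Θ h_c = hFun M c`, holomorphic values, `q`-expansion = the formal element, `Γ₁(M)`-invariant,
  diamond law under `Γ₀(M)`);
* `CuspData1 M D` : expansion maps `T γ : FF1 M →+* ℚbar((q_M))` for every `γ ∈ SL(2,ℤ)`.
Downstream X1 files are written against `(D : RealizeData1 M) (C : CuspData1 M D)` and
instantiated at the very end, exactly as in the X0 chapter.  Keep this file SMALL and STABLE.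
-/
import Fermat.Agent.X0.AnDefs
import Fermat.Agent.DS.G1.FieldDefs62
import Fermat.Agent.DS.G1.WpTorsion62

set_option autoImplicit false

open UpperHalfPlane
open scoped MatrixGroups

noncomputable section

namespace Fermat.Agent.DS.G1.X1

open Fermat.Agent.X0 Fermat.Agent.DS.G1.Defs62 Fermat.Agent.DS.G1.WpTorsion62 ModularCurve

/-! ### The formal side -/

/-- The formal `h_c = -j (j - 1728) t_c ∈ ℚ((q))` (`= EE_c E₄ E₆ / Δ`). -/
def hGen (M : ℕ) (c : ZMod M) : LaurentSeries ℚ :=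
  -(jq * (jq - HahnSeries.C (1728 : ℚ))) * tGen M c

theorem C_mem (K : IntermediateField ℚ (LaurentSeries ℚ)) (r : ℚ) :
    (HahnSeries.C r : LaurentSeries ℚ) ∈ K := by
  have h : (HahnSeries.C r : LaurentSeries ℚ) = algebraMap ℚ (LaurentSeries ℚ) r := by
    rw [algebraMap_apply_eq_single]; rfl
  rw [h]
  exact K.algebraMap_mem r

theorem hGen_mem_F1 {M : ℕ} {c : ZMod M} (hc : c ≠ 0) : hGen M c ∈ F1 M := by
  unfold hGen
  exact mul_mem (neg_mem (mul_mem (jq_mem_F1 M) (sub_mem (jq_mem_F1 M) (C_mem _ _))))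
    (tGen_mem_F1 hc)

variable (M : ℕ)

/-- The function field `F₁ = ℚbar · F1(M) ⊆ ℚbar((q))` of `X_1(M)`. -/
abbrev FF1 : Type := ↥(F1Bar M)

/-- The formal `j(q^d)` as an element of `F₁`, for `d ∣ M`. -/
def jdF1 (d : ℕ) [NeZero d] (hd : d ∣ M) : FF1 M :=
  ⟨coeffEmb Kbar (qExpand ℚ d jq), coeffEmb_mem_laurentBaseChange Kbar (jqd_mem_F1 M hd)⟩

/-- The formal `j` as an element of `F₁`. -/
def jF1 : FF1 M := jdF1 M 1 (one_dvd M)

/-- The formal `h_c` as an element of `F₁`. -/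
def hcF1 (c : ZMod M) (hc : c ≠ 0) : FF1 M :=
  ⟨coeffEmb Kbar (hGen M c), coeffEmb_mem_laurentBaseChange Kbar (hGen_mem_F1 hc)⟩

/-- The formal `t_c` as an element of `F₁`. -/
def tcF1 (c : ZMod M) (hc : c ≠ 0) : FF1 M :=
  ⟨coeffEmb Kbar (tGen M c), coeffEmb_mem_laurentBaseChange Kbar (tGen_mem_F1 hc)⟩

/-- The inclusion `F₀ = ℚbar(j_d) → F₁` (the covering `X_1(M) → X_0(M)`). -/
def incl01 : ↥(modularFunctionFieldBar M) →ₐ[Kbar] FF1 M :=
  IntermediateField.inclusion (modularFunctionFieldBar_le_F1Bar M)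

@[simp] theorem coe_incl01 (x : ↥(modularFunctionFieldBar M)) :
    ((incl01 M x : FF1 M) : LaurentSeries Kbar) = (x : LaurentSeries Kbar) :=
  IntermediateField.coe_inclusion _ x

/-- The generators `j_d` (`d ∣ M`) and `h_c` (`c ≠ 0`) of `F₁`. -/
def genSet1 : Set (FF1 M) :=
  {x | (∃ (d : ℕ) (_ : NeZero d) (hd : d ∣ M), x = jdF1 M d hd) ∨
    (∃ (c : ZMod M) (hc : c ≠ 0), x = hcF1 M c hc)}

/-- The `ℚbar`-subalgebra `R₁ = ℚbar[j_d, h_c]` of `F₁`. -/
def R1sub : Subalgebra Kbar (FF1 M) := Algebra.adjoin Kbar (genSet1 M)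

/-- The subfield `ℚbar(j)` of `F₁`. -/
def Kj1 : IntermediateField Kbar (FF1 M) := IntermediateField.adjoin Kbar {jF1 M}

/-- `j_d` as an element of `R₁`. -/
def jdR1 (d : ℕ) [NeZero d] (hd : d ∣ M) : R1sub M :=
  ⟨jdF1 M d hd, Algebra.subset_adjoin (Or.inl ⟨d, inferInstance, hd, rfl⟩)⟩

/-- `h_c` as an element of `R₁`. -/
def hcR1 (c : ZMod M) (hc : c ≠ 0) : R1sub M :=
  ⟨hcF1 M c hc, Algebra.subset_adjoin (Or.inr ⟨c, hc, rfl⟩)⟩

@[simp] theorem coe_jdR1 (d : ℕ) [NeZero d] (hd : d ∣ M) :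
    ((jdR1 M d hd : R1sub M) : FF1 M) = jdF1 M d hd := rfl

@[simp] theorem coe_hcR1 (c : ZMod M) (hc : c ≠ 0) :
    ((hcR1 M c hc : R1sub M) : FF1 M) = hcF1 M c hc := rfl

/-- Induction principle for `R₁`. -/
theorem R1sub_induction {p : R1sub M → Prop}
    (hj : ∀ (d : ℕ) [NeZero d] (hd : d ∣ M), p (jdR1 M d hd))
    (hh : ∀ (c : ZMod M) (hc : c ≠ 0), p (hcR1 M c hc))
    (hconst : ∀ c : Kbar, p (algebraMap Kbar (R1sub M) c))
    (hadd : ∀ u v, p u → p v → p (u + v))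
    (hmul : ∀ u v, p u → p v → p (u * v)) (u : R1sub M) : p u := by
  obtain ⟨x, hx⟩ := u
  induction hx using Algebra.adjoin_induction with
  | mem y hy =>
      rcases hy with ⟨d, hne, hd, rfl⟩ | ⟨c, hc, rfl⟩
      · have := hne
        exact hj d hd
      · exact hh c hc
  | algebraMap c => exact hconst c
  | add x y hx hy ihx ihy => exact hadd ⟨x, hx⟩ ⟨y, hy⟩ ihx ihy
  | mul x y hx hy ihx ihy => exact hmul ⟨x, hx⟩ ⟨y, hy⟩ ihx ihy

/-! ### `±Γ₁(M)` -/

set_option linter.unusedSimpArgs false in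
/-- The subgroup `±Γ₁(M)` of `SL(2,ℤ)` (the stabiliser of `F₁`: `-1` acts trivially on `ℍ`). -/
def Gamma1pm : Subgroup SL(2, ℤ) where
  carrier := {γ | γ ∈ CongruenceSubgroup.Gamma1 M ∨ -γ ∈ CongruenceSubgroup.Gamma1 M}
  one_mem' := Or.inl (one_mem _)
  mul_mem' := by
    rintro a b (ha | ha) (hb | hb)
    · exact Or.inl (mul_mem ha hb)
    · right
      have : -(a * b) = a * -b := by rw [mul_neg]
      rw [this]; exact mul_mem ha hb
    · right
      have : -(a * b) = -a * b := by rw [neg_mul]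
      rw [this]; exact mul_mem ha hb
    · left
      have : a * b = -a * -b := by rw [neg_mul_neg]
      rw [this]; exact mul_mem ha hb
  inv_mem' := by
    rintro a (ha | ha)
    · exact Or.inl (inv_mem ha)
    · right
      have h := inv_mem ha
      have : (-a)⁻¹ = -a⁻¹ := by
        rw [inv_eq_iff_eq_inv]
        ext i j
        fin_cases i <;> fin_cases j <;> simp [Matrix.SpecialLinearGroup.coe_inv,
          Matrix.adjugate_fin_two]
      rwa [this] at h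

theorem mem_Gamma1pm {γ : SL(2, ℤ)} :
    γ ∈ Gamma1pm M ↔ γ ∈ CongruenceSubgroup.Gamma1 M ∨ -γ ∈ CongruenceSubgroup.Gamma1 M :=
  Iff.rfl

theorem Gamma1_le_Gamma1pm : CongruenceSubgroup.Gamma1 M ≤ Gamma1pm M := fun _ h => Or.inl h

/-! ### The interface structures -/

variable [NeZero M]

/-- Analytic realisation of `R₁ = ℚbar[j_d, h_c]` as holomorphic functions on `ℍ` (twin of
`X0.RealizeData`): an injective ring hom `Θ` with `Θ j_d = j(d ·)`, `Θ h_c = hFun M c`,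
`Θ c = ι c` on constants, holomorphic and `Γ₁(M)`-invariant values, whose `q`-expansion (after
`ι`) is the formal element; under `γ ∈ Γ₀(M)` the values transform by the diamond rule. -/
structure RealizeData1 where
  /-- the realisation map -/
  Θ : R1sub M →+* (ℍ → ℂ)
  injective : Function.Injective Θ
  algebraMap_eq : ∀ c : Kbar, Θ (algebraMap Kbar (R1sub M) c) = fun _ => iotaK c
  jd_eq : ∀ (d : ℕ) [NeZero d] (hd : d ∣ M), Θ (jdR1 M d hd) = jdFun d
  hc_eq : ∀ (c : ZMod M) (hc : c ≠ 0), Θ (hcR1 M c hc) = hFun M c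
  mem_HolH : ∀ u : R1sub M, Θ u ∈ HolH
  isQExp : ∀ u : R1sub M, ∃ (m : ℕ) (P : PowerSeries Kbar),
    IsQExp 1 (Θ u) m (P.map iotaK) ∧ (((u : FF1 M) : LaurentSeries Kbar)) = laurentOf m P
  invariant : ∀ (u : R1sub M) (γ : SL(2, ℤ)), γ ∈ CongruenceSubgroup.Gamma1 M →
    compSL (Θ u) γ = Θ u

/-- Cusp expansions (twin of `X0.CuspData`): for every `γ ∈ SL(2, ℤ)` a ring hom
`T γ : F₁ → ℚbar((q_M))`, which on `u ∈ R₁` is the `q_M`-expansion of `Θ u ∘ γ`. -/
structure CuspData1 (D : RealizeData1 M) where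
  /-- the expansion maps -/
  T : SL(2, ℤ) → (FF1 M →+* LaurentSeries Kbar)
  spec : ∀ (γ : SL(2, ℤ)) (u : R1sub M), ∃ (m : ℕ) (P : PowerSeries Kbar),
    IsQExp M (compSL (D.Θ u) γ) m (P.map iotaK) ∧ T γ (u : FF1 M) = laurentOf m P

end Fermat.Agent.DS.G1.X1
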